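/-
P-DS / ES1-C row 736 (ES1-C-KH), helper12.

Hecke equivariance of the Kummer characters of `model1 M`: port of
`Fermat.Agent.H35.kummerHecke_of_parts` (`Γ₀(N)`) to the group `G1 M = ⟨Γ₁(M), -1⟩`.

From a datum `(D, f, G)` for `(x, χ)` we build the datum
`(α_* β^* D, Norm_α (β f), ∏_x G ∘ famU1 x)` for `(heckeOperatorGen x, cohU1Char χ)`.
-/
import Fermat.Agent.H21.Es1C.Interfaces
import Fermat.Agent.H35.EsC.KummerHecke

set_option autoImplicit false

noncomputable section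

open AlgebraicCurve CongruenceSubgroup UpperHalfPlane IntermediateField
open scoped MatrixGroups Manifold OnePoint
open ModularCurve ModularCurve.Period

namespace Fermat.Agent.H12.Es1C

open Fermat.Agent.H21 Fermat.Agent.H21.Es1C Fermat.Agent.H29.ES1 Fermat.Agent.H7.DS
open Fermat.Agent.H23.ES1A

/-! ### The analytic side: the product of the translates -/

theorem det_mapGL_pos (δ : SL(2, ℤ)) :
    0 < ((Matrix.SpecialLinearGroup.mapGL ℝ δ : GL (Fin 2) ℝ).det : ℝ) := by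
  have h : ((Matrix.SpecialLinearGroup.mapGL ℝ δ : GL (Fin 2) ℝ).det : ℝ) = 1 := by
    rw [Matrix.SpecialLinearGroup.det_mapGL]
    rfl
  rw [h]
  exact one_pos

theorem det_heckeRep1_pos (p : ℕ) (δ : SL(2, ℤ)) (x : OnePoint (ZMod p)) :
    0 < ((heckeRep1 p δ x).det : ℝ) := by
  cases x with
  | infty =>
    rw [heckeRep1_infty, map_mul, Units.val_mul]
    exact mul_pos (det_mapGL_pos δ) (ModularForm.det_heckeDiagMatrix_pos p)
  | coe j => exact ModularForm.det_heckeMatrix_pos p j.val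

theorem det_famU1_pos (M p : ℕ) (x : OnePoint (ZMod p)) :
    0 < ((famU1 M p x).det : ℝ) := by
  rw [famU1, map_mul, map_inv, Units.val_mul, Units.val_inv_eq_inv_val]
  exact mul_pos (inv_pos.mpr (det_mapGL_pos _)) (det_heckeRep1_pos p _ x)

theorem mdiff_heckeProdU1 (M p : ℕ) [NeZero p] {G : ℍ → ℂ} (hG : MDiff G) :
    MDiff (heckeProdU1 M p G) := by
  classical
  have h1 : ∀ x : OnePoint (ZMod p), MDiff (fun z : ℍ => G (famU1 M p x • z)) := by
    intro x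
    exact hG.comp (UpperHalfPlane.mdifferentiable_smul (det_famU1_pos M p x))
  have h2 : ∀ s : Finset (OnePoint (ZMod p)),
      MDiff (fun z : ℍ => ∏ x ∈ s, G (famU1 M p x • z)) := by
    intro s
    induction s using Finset.induction_on with
    | empty =>
      simp only [Finset.prod_empty]
      exact mdifferentiable_const
    | insert a s ha ih =>
      simp only [Finset.prod_insert ha]
      exact (h1 a).mul ih
  exact h2 Finset.univ

theorem heckeProdU1_pow (M p : ℕ) [NeZero p] (G : ℍ → ℂ) (m : ℕ) :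
    heckeProdU1 M p G ^ m = heckeProdU1 M p (G ^ m) := by
  funext z
  simp only [heckeProdU1, Pi.pow_apply, Finset.prod_pow]

theorem cohU1Char_apply (M p : ℕ) [NeZero p] (hR : Rewriting (g1ToGL M) (famU1 M p))
    (χ : ↥(G1 M) →* ℂˣ) (γ : ↥(G1 M)) :
    cohU1Char M p χ γ = ∏ x, χ (hR.kap γ x) := by
  have h2 : cohU1Char M p χ γ
      = Additive.toMul (cohU1 M p (Additive ℂˣ) (MonoidHom.toAdditive χ)
          (Additive.ofMul γ)) := rfl
  rw [h2, cohU1, dif_pos hR, Rewriting.transfer_apply, toMul_sum]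
  rfl

theorem heckeProdU1_smul (M : ℕ) [NeZero M] (p : ℕ) [NeZero p]
    (hR : Rewriting (g1ToGL M) (famU1 M p))
    {G : ℍ → ℂ} {χ : ↥(G1 M) →* ℂˣ}
    (h : ∀ (γ : ↥(G1 M)) (z : ℍ), G ((γ : SL(2, ℤ)) • z) = (χ γ : ℂ) * G z)
    (γ : ↥(G1 M)) (z : ℍ) :
    heckeProdU1 M p G ((γ : SL(2, ℤ)) • z)
      = (cohU1Char M p χ γ : ℂ) * heckeProdU1 M p G z := by
  rw [cohU1Char_apply M p hR χ γ]
  simp only [heckeProdU1]
  have h1 : ∀ x : OnePoint (ZMod p),
      G (famU1 M p x • ((γ : SL(2, ℤ)) • z))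
        = (χ (hR.kap γ x) : ℂ) * G (famU1 M p (hR.tgt γ x) • z) := by
    intro x
    have h2 : famU1 M p x • ((γ : SL(2, ℤ)) • z)
        = ((hR.kap γ x : ↥(G1 M)) : SL(2, ℤ)) • (famU1 M p (hR.tgt γ x) • z) := by
      have h3 : (γ : SL(2, ℤ)) • z = Matrix.SpecialLinearGroup.mapGL ℝ (γ : SL(2, ℤ)) • z := rfl
      have h4 : ((hR.kap γ x : ↥(G1 M)) : SL(2, ℤ)) • (famU1 M p (hR.tgt γ x) • z)
          = Matrix.SpecialLinearGroup.mapGL ℝ ((hR.kap γ x : ↥(G1 M)) : SL(2, ℤ))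
              • (famU1 M p (hR.tgt γ x) • z) := rfl
      rw [h3, h4, ← mul_smul, ← mul_smul]
      congr 1
      exact hR.spec γ x
    rw [h2]
    exact h (hR.kap γ x) _
  rw [Finset.prod_congr rfl (fun x _ => h1 x), Finset.prod_mul_distrib]
  congr 1
  · push_cast
    rfl
  · exact Equiv.prod_comp (hR.perm γ) (fun x => G (famU1 M p x • z))

/-- The torsion–character relation of `model1 M`, unfolded. -/
theorem torsionCharRel_model1_iff (M : ℕ) [NeZero M] (m : ℕ) (x : Pic0 ℂ ↥(F1C M))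
    (χ : ↥(G1 M) →* ℂˣ) :
    TorsionCharRel (model1 M) m x χ ↔
      ∃ (D : Divisor.degZero (K := ℂ) (F := ↥(F1C M))) (f : ↥(F1C M)) (G : ℍ → ℂ),
        Pic0.mk D = x ∧ f ≠ 0 ∧
        (∀ v : Place ℂ ↥(F1C M), v.ord f = (m : ℤ) * (D : Divisor ℂ ↥(F1C M)) v) ∧
        MDiff G ∧ Rep (model1 M) (G ^ m) f ∧
        ∀ (γ : ↥(G1 M)) (z : ℍ), G ((γ : SL(2, ℤ)) • z) = (χ γ : ℂ) * G z :=
  Iff.rfl

/-! ### Assembly -/

/-- **ES1-C-KH.**  The torsion–character relation of `model1 M` intertwines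
`heckeOperatorGen ℂ (F1 M) p = α_* β^*` with the transfer `cohU1` on characters. -/
theorem kummerHecke1_of_parts (hN : NormRep1Statement)
    (hI : ∀ (M : ℕ) [NeZero M], 5 ≤ M → ∀ (p : ℕ) [NeZero p], p.Prime → ¬ p ∣ M →
      HeckeInputsGen ℂ (F1 M) p)
    (hR : ∀ (M : ℕ) [NeZero M], 5 ≤ M → ∀ (p : ℕ) [NeZero p], p.Prime → ¬ p ∣ M →
      Rewriting (g1ToGL M) (famU1 M p)) :
    KummerHecke1Statement := by
  intro M _ hM p _ hp hpM m hm x χ hx
  obtain ⟨hα, hβ, hP, hfin, hFI, hNF⟩ := hI M hM p hp hpM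
  have := hP
  rw [torsionCharRel_model1_iff] at hx ⊢
  obtain ⟨D, f, G, hDx, hf0, hord, hG, hrep, hchar⟩ := hx
  rw [heckeOperatorGen_eq hα hβ hFI hfin hNF]
  refine ⟨Pic0.degZeroCorrespondence (betaGen ℂ (F1 M) p) (alphaGen ℂ (F1 M) p) hβ hα hFI D,
    (letI := algebraAlong (alphaGen ℂ (F1 M) p)
     Algebra.norm ↥(F1C M) (betaGen ℂ (F1 M) p f)),
    heckeProdU1 M p G, ?_, ?_, ?_, ?_, ?_, ?_⟩
  · rw [← hDx]
    rfl
  · exact Fermat.Agent.H35.esc_norm_ne_zero (betaGen ℂ (F1 M) p) (alphaGen ℂ (F1 M) p) hfin f hf0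
  · intro v
    exact Fermat.Agent.H35.esc_ord_norm_correspondence (betaGen ℂ (F1 M) p)
      (alphaGen ℂ (F1 M) p) hβ hα hfin hNF (m : ℤ) (D : Divisor ℂ ↥(F1C M)) f hf0 hord v
  · exact mdiff_heckeProdU1 M p hG
  · rw [heckeProdU1_pow]
    exact hN M hM p hp hpM f (G ^ m) (hG.pow m) hrep
  · exact heckeProdU1_smul M p (hR M hM p hp hpM) hchar

end Fermat.Agent.H12.Es1C

end
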