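/-
P-DS / ES1-C row 728 (ES1-C-PER-A), helper12.

Existence of the decaying equivariant primitive of a weight 2 cusp form on `Γ₁(M)`, for the group
`G1 M = ⟨Γ₁(M), -1⟩`: port of `Fermat.Agent.H63.S21A`.
-/
import Fermat.Agent.H21.Es1C.Interfaces
import Fermat.Agent.H63.S21A

set_option autoImplicit false

noncomputable section

namespace Fermat.Agent.H12.Es1C

open Filter Topology Complex Function CongruenceSubgroup
open UpperHalfPlane hiding I
open scoped MatrixGroups ModularForm Manifold Real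
open Fermat.Agent.H21.Es1C Fermat.Agent.H29.ES1

/-- The slash action of `-1` in weight `2` is trivial. -/
theorem slash_neg_one_two (f : ℍ → ℂ) : f ∣[(2 : ℤ)] (-1 : SL(2, ℤ)) = f := by
  funext τ
  rw [ModularForm.SL_slash_apply]
  have h1 : (-1 : SL(2, ℤ)) • τ = τ := by
    rw [ModularGroup.SL_neg_smul, one_smul]
  have h2 : denom ((-1 : SL(2, ℤ)) : GL (Fin 2) ℝ) τ = -1 := by
    simp [denom]
  rw [h1, h2]
  simp

/-- The subgroup of `SL(2, ℤ)` fixing a function under the weight `2` slash action. -/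
def slashStab (f : ℍ → ℂ) : Subgroup SL(2, ℤ) where
  carrier := {γ | f ∣[(2 : ℤ)] γ = f}
  one_mem' := by
    show f ∣[(2 : ℤ)] (1 : SL(2, ℤ)) = f
    exact SlashAction.slash_one _ _
  mul_mem' := by
    intro a b ha hb
    show f ∣[(2 : ℤ)] (a * b) = f
    rw [SlashAction.slash_mul, show f ∣[(2 : ℤ)] a = f from ha]
    exact hb
  inv_mem' := by
    intro a ha
    show f ∣[(2 : ℤ)] a⁻¹ = f
    have h : f ∣[(2 : ℤ)] a = f := ha
    conv_lhs => rw [← h]
    rw [← SlashAction.slash_mul, mul_inv_cancel]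
    exact SlashAction.slash_one _ _

theorem mem_slashStab_iff {f : ℍ → ℂ} {γ : SL(2, ℤ)} :
    γ ∈ slashStab f ↔ f ∣[(2 : ℤ)] γ = f := Iff.rfl

/-- A weight `2` cusp form on `Γ₁(M)` is slash invariant under `G1 M = ⟨Γ₁(M), -1⟩`. -/
theorem slash_eq_of_mem_G1 (M : ℕ) (f : CuspForm (Gamma1 M) 2) {γ : SL(2, ℤ)}
    (hγ : γ ∈ G1 M) : (f : ℍ → ℂ) ∣[(2 : ℤ)] γ = f := by
  have hle : G1 M ≤ slashStab (f : ℍ → ℂ) := by
    refine sup_le ?_ ?_
    · intro δ hδ
      exact SlashInvariantFormClass.slash_action_eq f _ (Subgroup.mem_map_of_mem _ hδ)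
    · rw [Subgroup.zpowers_le]
      exact slash_neg_one_two _
  exact hle hγ

/-- **ES1-C-PER-A.**  Every weight `2` cusp form on `Γ₁(M)` has a decaying primitive which is
equivariant for `G1 M = ⟨Γ₁(M), -1⟩`. -/
theorem existsPrimitive1 : ExistsPrimitive1Statement := by
  intro M _ f
  have hper1 : Periodic ((f : ℍ → ℂ) ∘ ofComplex) (1 : ℝ) :=
    SlashInvariantFormClass.periodic_comp_ofComplex f
      (by rw [CongruenceSubgroup.strictPeriods_Gamma1]; exact AddSubgroup.mem_zmultiples 1)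
  have hhol : MDiff (f : ℍ → ℂ) := CuspFormClass.holo f
  have hzero : IsZeroAtImInfty (f : ℍ → ℂ) := by
    have := CuspFormClass.zero_at_infty_slash f (1 : SL(2, ℤ))
    simpa using this
  obtain ⟨F, hF, hF0⟩ :=
    Fermat.Agent.H63.exists_decaying_primitive 1 one_pos f hper1 hhol hzero
  refine ⟨F, hF, hF0, ?_, ?_⟩
  · intro γ
    have hinv : (f : ℍ → ℂ) ∣[(2 : ℤ)] (γ : SL(2, ℤ)) = f := slash_eq_of_mem_G1 M f γ.2
    have hder : ∀ τ : ℍ,
        HasDerivAt ((fun z : ℍ => F ((γ : SL(2, ℤ)) • z) - F z) ∘ ofComplex) 0 τ := by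
      intro τ
      have h1 := Fermat.Agent.H63.hasDerivAt_comp_smul F f hF γ τ
      rw [hinv] at h1
      have h2 := h1.sub (hF τ)
      rw [sub_self] at h2
      exact h2
    exact Fermat.Agent.H63.exists_const_of_hasDerivAt_zero _ hder
  · intro δ
    obtain ⟨N, hN, hNper⟩ := Subgroup.IsArithmetic.exists_nat_mem_strictPeriods_conj
      ((CongruenceSubgroup.Gamma1 M : Subgroup SL(2, ℤ)) : Subgroup (GL (Fin 2) ℝ))
    have hNpos : (0 : ℝ) < (N : ℝ) := by exact_mod_cast hN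
    have hperδ : Periodic (((f : ℍ → ℂ) ∣[(2 : ℤ)] δ) ∘ ofComplex) (N : ℝ) := by
      have h0 := hNper δ⁻¹
      rw [map_inv] at h0
      exact SlashInvariantFormClass.periodic_comp_ofComplex
        (CuspForm.translate f (Matrix.SpecialLinearGroup.mapGL ℝ δ)) h0
    have hholδ : MDiff ((f : ℍ → ℂ) ∣[(2 : ℤ)] δ) :=
      CuspFormClass.holo (CuspForm.translate f (Matrix.SpecialLinearGroup.mapGL ℝ δ))
    have hzeroδ : IsZeroAtImInfty ((f : ℍ → ℂ) ∣[(2 : ℤ)] δ) :=
      CuspFormClass.zero_at_infty_slash f δ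
    obtain ⟨G, hG, hG0⟩ :=
      Fermat.Agent.H63.exists_decaying_primitive N hNpos _ hperδ hholδ hzeroδ
    have hder : ∀ τ : ℍ, HasDerivAt ((fun z : ℍ => F (δ • z) - G z) ∘ ofComplex) 0 τ := by
      intro τ
      have h1 := Fermat.Agent.H63.hasDerivAt_comp_smul F f hF δ τ
      have h2 := h1.sub (hG τ)
      rw [sub_self] at h2
      exact h2
    obtain ⟨L, hL⟩ := Fermat.Agent.H63.exists_const_of_hasDerivAt_zero _ hder
    refine ⟨L, ?_⟩
    have hfun : (fun w : ℍ => F (δ • w)) = fun w => G w + L := by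
      funext w
      have := hL w
      rw [← this]
      ring
    rw [hfun]
    simpa using hG0.add_const L

end Fermat.Agent.H12.Es1C

end
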